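import Mathlib
import Fermat.Prelude.Def_GaloisRep_Flat

set_option autoImplicit false

noncomputable section

namespace Fermat.Agent.S28

variable (ℓ : ℕ) [Fact ℓ.Prime]

theorem pkgB_mem_Zl_iff {r : ℚ} : r ∈ GaloisRep.ratLocalizedAt ℓ ↔ ¬ ℓ ∣ r.den := by
  have hp : ℓ.Prime := Fact.out
  show r.den.Coprime ℓ ↔ _
  rw [Nat.coprime_comm, hp.coprime_iff_not_dvd]

variable {ℓ} in
theorem pkgB_mem_Zl_of {r : ℚ} (n d : ℤ) (hd : ¬ (ℓ : ℤ) ∣ d) (h : (d : ℚ) * r = n) :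
    r ∈ GaloisRep.ratLocalizedAt ℓ := by
  rw [pkgB_mem_Zl_iff]
  intro hdvd
  have hd0 : d ≠ 0 := fun h0 => hd (h0 ▸ dvd_zero _)
  have hr : r = Rat.divInt n d := by
    have hd0' : (d : ℚ) ≠ 0 := by exact_mod_cast hd0
    rw [Rat.divInt_eq_div, eq_div_iff hd0', mul_comm]
    exact h
  have h1 : (r.den : ℤ) ∣ d := by rw [hr]; exact Rat.den_dvd n d
  exact hd ((Int.natCast_dvd_natCast.mpr hdvd).trans h1)

theorem pkgB_Zl_valuation (x : ℚ) :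
    x ∈ GaloisRep.ratLocalizedAt ℓ ∨ x⁻¹ ∈ GaloisRep.ratLocalizedAt ℓ := by
  have hp : ℓ.Prime := Fact.out
  by_cases h : ℓ ∣ x.den
  · right
    have hx0 : x ≠ 0 := by
      rintro rfl
      simp at h
      exact hp.one_lt.ne' h
    rw [pkgB_mem_Zl_iff, Rat.den_inv_of_ne_zero hx0]
    intro h2
    have := Nat.dvd_gcd h2 h
    rw [x.reduced] at this
    exact hp.one_lt.ne' (Nat.dvd_one.mp this)
  · left
    exact (pkgB_mem_Zl_iff ℓ).mpr h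

/-- The valuation subring of `ℚ` underlying `ℤ_(ℓ)`. -/
def pkgB_ZlV : ValuationSubring ℚ :=
  { GaloisRep.ratLocalizedAt ℓ with mem_or_inv_mem' := pkgB_Zl_valuation ℓ }

def pkgB_ZlEquiv : ↥(pkgB_ZlV ℓ) ≃+* ↥(GaloisRep.ratLocalizedAt ℓ) where
  toFun x := ⟨x.1, x.2⟩
  invFun x := ⟨x.1, x.2⟩
  left_inv _ := rfl
  right_inv _ := rfl
  map_mul' _ _ := rfl
  map_add' _ _ := rfl

instance pkgB_Zl_isIntegrallyClosed : IsIntegrallyClosed ↥(GaloisRep.ratLocalizedAt ℓ) :=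
  IsIntegrallyClosed.of_equiv (pkgB_ZlEquiv ℓ)

theorem pkgB_Zl_natCast_dvd_iff (x : ↥(GaloisRep.ratLocalizedAt ℓ)) :
    ((ℓ : ℕ) : ↥(GaloisRep.ratLocalizedAt ℓ)) ∣ x ↔ (ℓ : ℤ) ∣ (x : ℚ).num := by
  have hp : ℓ.Prime := Fact.out
  have hpZ : Prime (ℓ : ℤ) := Nat.prime_iff_prime_int.mp hp
  constructor
  · rintro ⟨y, rfl⟩
    have hy : ¬ ℓ ∣ (y : ℚ).den := (pkgB_mem_Zl_iff ℓ).mp y.2
    set x : ℚ := ((((ℓ : ℕ) : ↥(GaloisRep.ratLocalizedAt ℓ)) * y :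
      ↥(GaloisRep.ratLocalizedAt ℓ)) : ℚ) with hx
    have hxe : x = (ℓ : ℚ) * (y : ℚ) := by simp [hx]
    have e : x.num * ((y : ℚ).den : ℤ) = (ℓ : ℤ) * (y : ℚ).num * (x.den : ℤ) := by
      have h1 : (x.num : ℚ) * ((y : ℚ).den : ℚ) = (ℓ : ℚ) * (y : ℚ).num * (x.den : ℚ) := by
        rw [← Rat.mul_den_eq_num x, ← Rat.mul_den_eq_num (y : ℚ), hxe]
        ring
      exact_mod_cast h1
    have h2 : (ℓ : ℤ) ∣ x.num * ((y : ℚ).den : ℤ) := ⟨(y : ℚ).num * x.den, by rw [e]; ring⟩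
    rcases hpZ.dvd_or_dvd h2 with h3 | h3
    · exact h3
    · exact absurd (Int.natCast_dvd_natCast.mp h3) hy
  · rintro ⟨k, hk⟩
    have hxd : ((x : ℚ).den : ℚ) ≠ 0 := by exact_mod_cast (x : ℚ).den_ne_zero
    have hmem : (k : ℚ) / (x : ℚ).den ∈ GaloisRep.ratLocalizedAt ℓ := by
      refine pkgB_mem_Zl_of k ((x : ℚ).den : ℤ) ?_ ?_
      · intro h
        exact (pkgB_mem_Zl_iff ℓ).mp x.2 (Int.natCast_dvd_natCast.mp h)
      · rw [Int.cast_natCast, mul_div_cancel₀ _ hxd]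
    refine ⟨⟨_, hmem⟩, Subtype.ext ?_⟩
    have h1 : (x : ℚ) = ((x : ℚ).num : ℚ) / (x : ℚ).den := (Rat.num_div_den _).symm
    show (x : ℚ) = ((ℓ : ℕ) : ↥(GaloisRep.ratLocalizedAt ℓ)) * ((k : ℚ) / (x : ℚ).den)
    have h2 : ((((ℓ : ℕ) : ↥(GaloisRep.ratLocalizedAt ℓ)) : ℚ)) = (ℓ : ℚ) := by simp
    rw [h2]
    conv_lhs => rw [h1, hk]
    push_cast
    ring

theorem pkgB_Zl_prime : Prime ((ℓ : ℕ) : ↥(GaloisRep.ratLocalizedAt ℓ)) := by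
  have hp : ℓ.Prime := Fact.out
  have hpZ : Prime (ℓ : ℤ) := Nat.prime_iff_prime_int.mp hp
  refine ⟨?_, ?_, ?_⟩
  · intro h
    have := congrArg (Subtype.val) h
    simp at this
    exact hp.ne_zero this
  · intro hu
    have h1 : ((ℓ : ℕ) : ↥(GaloisRep.ratLocalizedAt ℓ)) ∣ 1 := hu.dvd
    rw [pkgB_Zl_natCast_dvd_iff] at h1
    have h2 : ((1 : ↥(GaloisRep.ratLocalizedAt ℓ)) : ℚ).num = 1 := by simp
    rw [h2] at h1
    have := Int.natCast_dvd_natCast.mp (by simpa using h1 : ((ℓ : ℕ) : ℤ) ∣ ((1 : ℕ) : ℤ))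
    exact hp.one_lt.ne' (Nat.dvd_one.mp this)
  · intro a b hab
    rw [pkgB_Zl_natCast_dvd_iff] at hab ⊢
    rw [pkgB_Zl_natCast_dvd_iff]
    have hden : ¬ ℓ ∣ ((a * b : ↥(GaloisRep.ratLocalizedAt ℓ)) : ℚ).den :=
      (pkgB_mem_Zl_iff ℓ).mp (a * b).2
    set x : ℚ := ((a * b : ↥(GaloisRep.ratLocalizedAt ℓ)) : ℚ) with hx
    have hxe : x = (a : ℚ) * (b : ℚ) := by simp [hx]
    have e : x.num * (((a : ℚ).den : ℤ) * ((b : ℚ).den : ℤ))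
        = (a : ℚ).num * (b : ℚ).num * (x.den : ℤ) := by
      have h1 : (x.num : ℚ) * (((a : ℚ).den : ℚ) * ((b : ℚ).den : ℚ))
          = (a : ℚ).num * (b : ℚ).num * (x.den : ℚ) := by
        rw [← Rat.mul_den_eq_num x, ← Rat.mul_den_eq_num (a : ℚ), ← Rat.mul_den_eq_num (b : ℚ),
          hxe]
        ring
      exact_mod_cast h1
    have h2 : (ℓ : ℤ) ∣ (a : ℚ).num * (b : ℚ).num * (x.den : ℤ) := by
      rw [← e]
      exact Dvd.dvd.mul_right hab _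
    rcases hpZ.dvd_or_dvd h2 with h3 | h3
    · exact hpZ.dvd_or_dvd h3
    · exact absurd (Int.natCast_dvd_natCast.mp h3) hden

end Fermat.Agent.S28
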