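import Mathlib

set_option autoImplicit false

open Polynomial
open scoped TensorProduct

noncomputable section

namespace Fermat.Agent.S28

/-- Step (I): over an integrally closed domain `R` with a prime `π` and `c` prime to `π`,
an element `z` such that `π • z` and `c • z` are integral is itself integral. -/
theorem pkgB_isIntegral_of_smul {R S : Type*} [CommRing R] [IsDomain R] [IsIntegrallyClosed R]
    [CommRing S] [IsDomain S] [Algebra R S] [FaithfulSMul R S]
    {π c : R} (hπ : Prime π) (hc : ¬ π ∣ c) {z : S}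
    (h1 : IsIntegral R (π • z)) (h2 : IsIntegral R (c • z)) : IsIntegral R z := by
  classical
  have hc0 : c ≠ 0 := fun h => hc (h ▸ dvd_zero π)
  have hπ0 : π ≠ 0 := hπ.ne_zero
  set P := minpoly R (π • z) with hP
  set Q' := minpoly R (c • z) with hQ'
  have hPm : P.Monic := minpoly.monic h1
  have hQm : Q'.Monic := minpoly.monic h2
  have e1 : minpoly R (c • (π • z)) = P.scaleRoots c := IsIntegrallyClosed.minpoly_smul hc0 h1
  have e2 : minpoly R (π • (c • z)) = Q'.scaleRoots π := IsIntegrallyClosed.minpoly_smul hπ0 h2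
  have e3 : c • (π • z) = π • (c • z) := smul_comm c π z
  have e4 : P.scaleRoots c = Q'.scaleRoots π := by rw [← e1, ← e2, e3]
  set d := P.natDegree with hd
  have hdQ : Q'.natDegree = d := by
    have := congrArg Polynomial.natDegree e4
    rw [natDegree_scaleRoots, natDegree_scaleRoots] at this
    exact this.symm
  have hcoeff : ∀ i, π ^ (d - i) ∣ P.coeff i := by
    intro i
    have := congrArg (fun p => p.coeff i) e4
    simp only [coeff_scaleRoots, hdQ, ← hd] at this
    have hcpow : ¬ π ∣ c ^ (d - i) := fun h => hc (hπ.dvd_of_dvd_pow h)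
    exact hπ.pow_dvd_of_dvd_mul_right (d - i) hcpow ⟨Q'.coeff i, by rw [this]; ring⟩
  choose a ha using hcoeff
  -- the candidate monic polynomial
  set Q : R[X] := X ^ d + ∑ i ∈ Finset.range d, C (a i) * X ^ i with hQ
  have hQmonic : Q.Monic := by
    apply monic_X_pow_add
    refine lt_of_le_of_lt (degree_sum_le _ _) ?_
    rw [Finset.sup_lt_iff (by exact WithBot.bot_lt_coe d)]
    intro i hi
    refine lt_of_le_of_lt (degree_C_mul_X_pow_le i (a i)) ?_
    exact_mod_cast Finset.mem_range.mp hi
  refine ⟨Q, hQmonic, ?_⟩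
  have hroot : aeval (π • z) P = 0 := minpoly.aeval R _
  rw [aeval_eq_sum_range, ← hd, Finset.sum_range_succ] at hroot
  have hlead : P.coeff d = 1 := hPm.coeff_natDegree
  have hπS : algebraMap R S π ≠ 0 := by
    rw [Ne, FaithfulSMul.algebraMap_eq_zero_iff]
    exact hπ0
  have key : algebraMap R S π ^ d * (z ^ d + ∑ i ∈ Finset.range d, algebraMap R S (a i) * z ^ i) = 0 := by
    rw [← hroot, mul_add, Finset.mul_sum, hlead, one_smul, add_comm]
    have hA : (π • z) ^ d = algebraMap R S π ^ d * z ^ d := by
      rw [Algebra.smul_def, mul_pow]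
    have hB : ∀ i ∈ Finset.range d, algebraMap R S π ^ d * (algebraMap R S (a i) * z ^ i)
        = P.coeff i • (π • z) ^ i := by
      intro i hi
      have hi' : i ≤ d := (Finset.mem_range.mp hi).le
      rw [ha i, Algebra.smul_def, Algebra.smul_def, map_mul, map_pow, mul_pow]
      have : algebraMap R S π ^ d = algebraMap R S π ^ (d - i) * algebraMap R S π ^ i := by
        rw [← pow_add, Nat.sub_add_cancel hi']
      rw [this]
      ring
    rw [Finset.sum_congr rfl hB, hA]
  have h0 := (mul_eq_zero.mp key).resolve_left (pow_ne_zero _ hπS)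
  rw [← aeval_def, hQ]
  simpa [map_sum] using h0

/-- A subring of a field satisfying the valuation property is integrally closed in the field. -/
theorem pkgB_mem_of_isIntegral {K : Type*} [Field K] (O : Subring K)
    (hO : ∀ x : K, x ∈ O ∨ x⁻¹ ∈ O) {x : K} (hx : IsIntegral O x) : x ∈ O := by
  let V : ValuationSubring K := { O with mem_or_inv_mem' := hO }
  have hx' : IsIntegral V x := hx
  obtain ⟨y, hy⟩ := IsIntegrallyClosed.isIntegral_iff.mp hx'
  rw [← hy]
  exact y.2

/-- Subalgebra version of `pkgB_mem_of_isIntegral`. -/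
theorem pkgB_mem_of_isIntegral_subalgebra {R K : Type*} [CommRing R] [Field K] [Algebra R K]
    (O : Subalgebra R K) (hO : ∀ x : K, x ∈ O ∨ x⁻¹ ∈ O) {x : K} (hx : IsIntegral O x) :
    x ∈ O := by
  let V : ValuationSubring K := { O.toSubring with mem_or_inv_mem' := hO }
  have hx' : IsIntegral V x := hx
  obtain ⟨y, hy⟩ := IsIntegrallyClosed.isIntegral_iff.mp hx'
  rw [← hy]
  exact y.2

/-- Dividing out the common power of a prime from a family which is not identically zero. -/
theorem pkgB_exists_prim {R : Type*} [CommRing R] [IsDomain R] [WfDvdMonoid R] {π : R}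
    (hπ : Prime π) {ι : Type*} (c : ι → R) (hc : ∃ i, c i ≠ 0) :
    ∃ (k : ℕ) (c' : ι → R), (∀ i, c i = π ^ k * c' i) ∧ ∃ i, ¬ π ∣ c' i := by
  obtain ⟨i₀, hi₀⟩ := hc
  obtain ⟨n, a, hna, hn⟩ := WfDvdMonoid.max_power_factor hi₀ hπ.irreducible
  induction n generalizing c with
  | zero => exact ⟨0, c, fun i => by simp, i₀, by rw [hn, pow_zero, one_mul]; exact hna⟩
  | succ n ih =>
    by_cases hall : ∀ i, π ∣ c i
    · choose d hd using hall
      have hd0 : d i₀ ≠ 0 := fun h0 => hi₀ (by rw [hd i₀, h0, mul_zero])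
      have hdn : d i₀ = π ^ n * a := by
        have h1 : π * d i₀ = π * (π ^ n * a) := by rw [← hd i₀, hn, pow_succ]; ring
        exact mul_left_cancel₀ hπ.ne_zero h1
      obtain ⟨k, c', hc', hex⟩ := ih d hd0 hdn
      refine ⟨k + 1, c', fun i => ?_, hex⟩
      rw [hd i, hc' i, pow_succ]
      ring
    · exact ⟨0, c, fun i => by simp, not_forall.mp hall⟩

/-- Injectivity of the "reduction" map on a tensor product with a field of characteristic `p`:
if `ρ : A → 𝔽_p((q))` is additive with kernel `p A`, then `A ⊗ K → K((q))` is injective. -/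
theorem pkgB_tensor_injective {R A K : Type*} [CommRing R] [CommRing A] [Algebra R A]
    [Field K] [Algebra R K] (p : ℕ) [Fact p.Prime] [CharP K p]
    (ρ : A →+ LaurentSeries (ZMod p))
    (hker : ∀ a : A, ρ a = 0 → ∃ a' : A, a = (p : A) * a')
    (Φ : A ⊗[R] K →+ LaurentSeries K)
    (hΦ : ∀ a c k, (Φ (a ⊗ₜ[R] c)).coeff k = c * ZMod.castHom (dvd_refl p) K ((ρ a).coeff k)) :
    Function.Injective Φ := by
  classical
  let _ : Algebra (ZMod p) K := ZMod.algebra K p
  let b := Module.Free.chooseBasis (ZMod p) K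
  have hrep : ∀ t : A ⊗[R] K, ∃ g : Module.Free.ChooseBasisIndex (ZMod p) K →₀ A,
      t = g.sum (fun i a => a ⊗ₜ[R] b i) := by
    intro t
    induction t using TensorProduct.induction_on with
    | zero => exact ⟨0, by simp⟩
    | tmul a c =>
      refine ⟨(b.repr c).mapRange (fun x => (x.val : A) * a) (by simp), ?_⟩
      rw [Finsupp.sum_mapRange_index (by simp)]
      have hc : c = (b.repr c).sum (fun i x => ((x.val : ℕ) : K) * b i) := by
        conv_lhs => rw [← b.linearCombination_repr c, Finsupp.linearCombination_apply]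
        refine Finsupp.sum_congr fun i _ => ?_
        rw [Algebra.smul_def]
        congr 1
        rw [← map_natCast (algebraMap (ZMod p) K), ZMod.natCast_zmod_val]
      conv_lhs => rw [hc]
      rw [Finsupp.sum, Finsupp.sum, TensorProduct.tmul_sum]
      refine Finset.sum_congr rfl fun i _ => ?_
      have e1 : ((b.repr c i).val : A) * a = (((b.repr c i).val : ℕ) : R) • a := by
        rw [Algebra.smul_def, map_natCast]
      have e2 : (((b.repr c i).val : ℕ) : K) * b i = (((b.repr c i).val : ℕ) : R) • b i := by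
        rw [Algebra.smul_def, map_natCast]
      rw [e1, e2, TensorProduct.smul_tmul]
    | add x y hx hy =>
      obtain ⟨g, rfl⟩ := hx
      obtain ⟨h, rfl⟩ := hy
      refine ⟨g + h, ?_⟩
      rw [Finsupp.sum_add_index' (by simp) (by intro i a₁ a₂; rw [TensorProduct.add_tmul])]
  rw [injective_iff_map_eq_zero]
  intro t ht
  obtain ⟨g, rfl⟩ := hrep t
  have h1 : ∀ k i, (ρ (g i)).coeff k = 0 := by
    intro k
    have h := congrArg (fun x => x.coeff k) ht
    simp only [Finsupp.sum, map_sum, HahnSeries.coeff_sum, hΦ, HahnSeries.coeff_zero] at h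
    have hli := b.linearIndependent
    rw [linearIndependent_iff'] at hli
    have h' := hli g.support (fun i => (ρ (g i)).coeff k) (by
      rw [← h]
      refine Finset.sum_congr rfl fun i _ => ?_
      rw [Algebra.smul_def, mul_comm]
      rfl)
    intro i
    by_cases hi : i ∈ g.support
    · exact h' i hi
    · rw [Finsupp.notMem_support_iff.mp hi, map_zero, HahnSeries.coeff_zero]
  have h2 : ∀ i, ρ (g i) = 0 := fun i => HahnSeries.ext (funext fun k => h1 k i)
  apply Finset.sum_eq_zero
  intro i _
  obtain ⟨a', ha'⟩ := hker (g i) (h2 i)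
  have e1 : (p : A) * a' = ((p : ℕ) : R) • a' := by
    rw [Algebra.smul_def, map_natCast]
  have e2 : ((p : ℕ) : R) • b i = 0 := by
    rw [Algebra.smul_def, map_natCast, CharP.cast_eq_zero, zero_mul]
  show g i ⊗ₜ[R] b i = 0
  rw [ha', e1, TensorProduct.smul_tmul, e2, TensorProduct.tmul_zero]

end Fermat.Agent.S28
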