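import Mathlib
import Fermat.Prelude.Def_ModularCurve_X0ModL
import Fermat.Agent.S28.PkgB.Generic

set_option autoImplicit false

open ModularCurve

noncomputable section

namespace Fermat.Agent.S28

/-- The inclusion `ℤ((q)) → ℚ((q))`. -/
abbrev pkgB_ι : LaurentSeries ℤ →+* LaurentSeries ℚ := coeffMap (Int.castRingHom ℚ)

theorem pkgB_ι_injective : Function.Injective pkgB_ι := by
  intro a b h
  ext k
  have := congrArg (fun x => x.coeff k) h
  simpa using this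

variable (ℓ : ℕ) [Fact ℓ.Prime]

/-- Reduction mod `ℓ`, `ℤ((q)) → 𝔽_ℓ((q))`. -/
abbrev pkgB_red : LaurentSeries ℤ →+* LaurentSeries (ZMod ℓ) :=
  coeffMap (Int.castRingHom (ZMod ℓ))

theorem pkgB_coeff_natCast_mul (n : ℕ) (a : LaurentSeries ℤ) (k : ℤ) :
    ((n : LaurentSeries ℤ) * a).coeff k = (n : ℤ) * a.coeff k := by
  rw [← map_natCast (HahnSeries.C : ℤ →+* LaurentSeries ℤ) n, HahnSeries.C_mul_eq_smul,
    HahnSeries.coeff_smul, smul_eq_mul]

theorem pkgB_red_natCast : pkgB_red ℓ (ℓ : LaurentSeries ℤ) = 0 := by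
  rw [map_natCast, ← map_natCast (HahnSeries.C : ZMod ℓ →+* LaurentSeries (ZMod ℓ)) ℓ,
    CharP.cast_eq_zero, map_zero]

/-- Elements killed by reduction are divisible by `ℓ`. -/
theorem pkgB_exists_div (a : LaurentSeries ℤ) (h : pkgB_red ℓ a = 0) :
    ∃ a₁ : LaurentSeries ℤ, a = (ℓ : LaurentSeries ℤ) * a₁ := by
  refine ⟨a.map (⟨fun n => n / (ℓ : ℤ), by simp⟩ : ZeroHom ℤ ℤ), ?_⟩
  ext k
  rw [pkgB_coeff_natCast_mul]
  have hk : ((a.coeff k : ℤ) : ZMod ℓ) = 0 := by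
    have := congrArg (fun x => x.coeff k) h
    simpa using this
  rw [ZMod.intCast_zmod_eq_zero_iff_dvd] at hk
  show a.coeff k = (ℓ : ℤ) * (a.coeff k / (ℓ : ℤ))
  rw [Int.mul_ediv_cancel' hk]

/-- The content lemma: every nonzero integral Laurent series is a power of `ℓ` times a series
with nonzero reduction. -/
theorem pkgB_content (a : LaurentSeries ℤ) (ha : a ≠ 0) :
    ∃ (s : ℕ) (a' : LaurentSeries ℤ), a = (ℓ : LaurentSeries ℤ) ^ s * a' ∧ pkgB_red ℓ a' ≠ 0 := by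
  have hp : ℓ.Prime := Fact.out
  obtain ⟨k, hk⟩ : ∃ k, a.coeff k ≠ 0 := by
    by_contra h
    exact ha (HahnSeries.ext (funext fun k => by simpa using not_exists.mp h k))
  induction hn : (a.coeff k).natAbs using Nat.strong_induction_on generalizing a with
  | _ n ih =>
    by_cases hr : pkgB_red ℓ a = 0
    · obtain ⟨a₁, rfl⟩ := pkgB_exists_div ℓ a hr
      have hcoef := pkgB_coeff_natCast_mul ℓ a₁ k
      have h1 : a₁.coeff k ≠ 0 := by
        intro h0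
        rw [hcoef, h0, mul_zero] at hk
        exact hk rfl
      have hlt : (a₁.coeff k).natAbs < n := by
        subst hn
        rw [hcoef, Int.natAbs_mul, Int.natAbs_natCast]
        have := Int.natAbs_pos.mpr h1
        nlinarith [hp.two_le]
      have ha₁ : a₁ ≠ 0 := by
        rintro rfl
        exact h1 rfl
      obtain ⟨s, a', h, h'⟩ := ih _ hlt a₁ ha₁ h1 rfl
      exact ⟨s + 1, a', by rw [h, pow_succ]; ring, h'⟩
    · exact ⟨0, a, by simp, hr⟩

/-- The Gauss valuation ring inside `ℚ((q))`: fractions `a / b` of integral Laurent series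
with `b` nonzero mod `ℓ`. -/
def pkgB_O : Subring (LaurentSeries ℚ) where
  carrier := {x | ∃ a b : LaurentSeries ℤ, pkgB_red ℓ b ≠ 0 ∧ pkgB_ι b * x = pkgB_ι a}
  mul_mem' := by
    rintro x y ⟨a, b, hb, h⟩ ⟨a', b', hb', h'⟩
    refine ⟨a * a', b * b', ?_, ?_⟩
    · rw [map_mul]; exact mul_ne_zero hb hb'
    · rw [map_mul, map_mul, ← h, ← h']; ring
  one_mem' := ⟨1, 1, by rw [map_one]; exact one_ne_zero, by simp⟩
  add_mem' := by
    rintro x y ⟨a, b, hb, h⟩ ⟨a', b', hb', h'⟩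
    refine ⟨a * b' + a' * b, b * b', ?_, ?_⟩
    · rw [map_mul]; exact mul_ne_zero hb hb'
    · rw [map_add, map_mul, map_mul, map_mul, ← h, ← h']; ring
  zero_mem' := ⟨0, 1, by rw [map_one]; exact one_ne_zero, by simp⟩
  neg_mem' := by
    rintro x ⟨a, b, hb, h⟩
    exact ⟨-a, b, hb, by rw [map_neg, ← h]; ring⟩

theorem pkgB_mem_O_iff {x : LaurentSeries ℚ} :
    x ∈ pkgB_O ℓ ↔ ∃ a b : LaurentSeries ℤ, pkgB_red ℓ b ≠ 0 ∧ pkgB_ι b * x = pkgB_ι a :=
  Iff.rfl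

theorem pkgB_ι_mem_O (a : LaurentSeries ℤ) : pkgB_ι a ∈ pkgB_O ℓ :=
  ⟨a, 1, by rw [map_one]; exact one_ne_zero, by simp⟩

open Classical in
/-- The reduction of an element of `ℚ((q))` (junk value outside the Gauss valuation ring). -/
def pkgB_redFun (x : LaurentSeries ℚ) : LaurentSeries (ZMod ℓ) :=
  if h : ∃ a b : LaurentSeries ℤ, pkgB_red ℓ b ≠ 0 ∧ pkgB_ι b * x = pkgB_ι a then
    pkgB_red ℓ h.choose / pkgB_red ℓ h.choose_spec.choose
  else 0

theorem pkgB_redFun_eq {x : LaurentSeries ℚ} {a b : LaurentSeries ℤ} (hb : pkgB_red ℓ b ≠ 0)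
    (h : pkgB_ι b * x = pkgB_ι a) : pkgB_redFun ℓ x = pkgB_red ℓ a / pkgB_red ℓ b := by
  have hex : ∃ a b : LaurentSeries ℤ, pkgB_red ℓ b ≠ 0 ∧ pkgB_ι b * x = pkgB_ι a := ⟨a, b, hb, h⟩
  rw [pkgB_redFun, dif_pos hex]
  obtain ⟨hb', h'⟩ := hex.choose_spec.choose_spec
  set a' := hex.choose
  set b' := hex.choose_spec.choose
  rw [div_eq_div_iff hb' hb, ← map_mul, ← map_mul]
  congr 1
  apply pkgB_ι_injective
  rw [map_mul, map_mul, ← h, ← h']
  ring

/-- The reduction homomorphism on the Gauss valuation ring. -/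
def pkgB_redO : ↥(pkgB_O ℓ) →+* LaurentSeries (ZMod ℓ) where
  toFun x := pkgB_redFun ℓ x.1
  map_one' := by
    rw [pkgB_redFun_eq ℓ (a := 1) (b := 1) (by rw [map_one]; exact one_ne_zero) (by simp)]
    simp
  map_zero' := by
    rw [pkgB_redFun_eq ℓ (a := 0) (b := 1) (by rw [map_one]; exact one_ne_zero) (by simp)]
    simp
  map_mul' := by
    rintro ⟨x, a, b, hb, h⟩ ⟨y, a', b', hb', h'⟩
    show pkgB_redFun ℓ (x * y) = pkgB_redFun ℓ x * pkgB_redFun ℓ y
    rw [pkgB_redFun_eq ℓ hb h, pkgB_redFun_eq ℓ hb' h',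
      pkgB_redFun_eq ℓ (a := a * a') (b := b * b') (by rw [map_mul]; exact mul_ne_zero hb hb')
        (by rw [map_mul, map_mul, ← h, ← h']; ring), map_mul, map_mul]
    field_simp
  map_add' := by
    rintro ⟨x, a, b, hb, h⟩ ⟨y, a', b', hb', h'⟩
    show pkgB_redFun ℓ (x + y) = pkgB_redFun ℓ x + pkgB_redFun ℓ y
    rw [pkgB_redFun_eq ℓ hb h, pkgB_redFun_eq ℓ hb' h',
      pkgB_redFun_eq ℓ (a := a * b' + a' * b) (b := b * b')
        (by rw [map_mul]; exact mul_ne_zero hb hb')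
        (by rw [map_add, map_mul, map_mul, map_mul, ← h, ← h']; ring),
      map_add, map_mul, map_mul, map_mul]
    field_simp

theorem pkgB_redO_eq {x : ↥(pkgB_O ℓ)} {a b : LaurentSeries ℤ} (hb : pkgB_red ℓ b ≠ 0)
    (h : pkgB_ι b * (x : LaurentSeries ℚ) = pkgB_ι a) :
    pkgB_redO ℓ x = pkgB_red ℓ a / pkgB_red ℓ b :=
  pkgB_redFun_eq ℓ hb h

theorem pkgB_redO_ι (a : LaurentSeries ℤ) :
    pkgB_redO ℓ ⟨pkgB_ι a, pkgB_ι_mem_O ℓ a⟩ = pkgB_red ℓ a := by
  rw [pkgB_redO_eq ℓ (a := a) (b := 1) (by rw [map_one]; exact one_ne_zero) (by simp)]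
  simp

end Fermat.Agent.S28
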