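import Mathlib
import Fermat.Prelude.Def_ModularCurve_IgusaScheme
import Fermat.Prelude.Def_ModularCurve_X0ModL
import Fermat.Agent.S28.PkgB.Generic
import Fermat.Agent.S28.PkgB.Zl
import Fermat.Agent.S28.PkgB.Gauss

set_option autoImplicit false
set_option linter.unusedSectionVars false

open ModularCurve ModularCurve.IgusaScheme

noncomputable section

namespace Fermat.Agent.S28

theorem pkgB_ι_C (n : ℤ) : pkgB_ι (HahnSeries.C n) = HahnSeries.C (n : ℚ) := by
  rw [HahnSeries.C_apply, HahnSeries.C_apply, coeffMap_single]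
  rfl

theorem pkgB_natCast_ne_zero {n : ℕ} (hn : n ≠ 0) : (n : LaurentSeries ℚ) ≠ 0 := by
  rw [← map_natCast (HahnSeries.C : ℚ →+* LaurentSeries ℚ) n]
  intro h
  have := HahnSeries.C_injective (Γ := ℤ) (R := ℚ) (h.trans (map_zero _).symm)
  exact hn (by exact_mod_cast this)

theorem pkgB_ι_ne_zero {a : LaurentSeries ℤ} (ha : a ≠ 0) : pkgB_ι a ≠ 0 := fun h =>
  ha (pkgB_ι_injective (h.trans (map_zero _).symm))

/-- Constants are fractions of integral Laurent series. -/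
theorem pkgB_C_rat (r : ℚ) :
    pkgB_ι (HahnSeries.C (r.den : ℤ)) * HahnSeries.C r = pkgB_ι (HahnSeries.C r.num) := by
  rw [pkgB_ι_C, pkgB_ι_C, ← map_mul]
  congr 1
  rw [mul_comm]
  exact_mod_cast Rat.mul_den_eq_num r

variable (N : ℕ) [NeZero N]

/-- Every element of the full modular function field is a fraction of integral Laurent series. -/
theorem pkgB_mem_E {x : LaurentSeries ℚ} (hx : x ∈ modularFunctionFieldFull N) :
    ∃ a b : LaurentSeries ℤ, b ≠ 0 ∧ pkgB_ι b * x = pkgB_ι a := by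
  induction hx using IntermediateField.adjoin_induction with
  | mem x hx =>
    obtain ⟨d, hd, -, rfl⟩ := hx
    refine ⟨qExpand ℤ d (jqModC ℤ), 1, one_ne_zero, ?_⟩
    rw [map_one, one_mul, pkgB_ι, coeffMap_qExpand, coeffMap_jqModC]
    rfl
  | algebraMap r =>
    refine ⟨HahnSeries.C r.num, HahnSeries.C (r.den : ℤ), ?_, ?_⟩
    · intro h
      have := HahnSeries.C_injective (Γ := ℤ) (R := ℤ) (h.trans (map_zero _).symm)
      exact r.den_ne_zero (by exact_mod_cast this)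
    · rw [algebraMap_laurentSeries_eq_single, ← HahnSeries.C_apply]
      exact pkgB_C_rat r
  | add x y _ _ ihx ihy =>
    obtain ⟨a, b, hb, h⟩ := ihx
    obtain ⟨a', b', hb', h'⟩ := ihy
    refine ⟨a * b' + a' * b, b * b', mul_ne_zero hb hb', ?_⟩
    rw [map_add, map_mul, map_mul, map_mul, ← h, ← h']
    ring
  | inv x _ ih =>
    obtain ⟨a, b, hb, h⟩ := ih
    by_cases ha : a = 0
    · subst ha
      rw [map_zero] at h
      have hx0 : x = 0 := (mul_eq_zero.mp h).resolve_left (pkgB_ι_ne_zero hb)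
      exact ⟨0, 1, one_ne_zero, by rw [hx0]; simp⟩
    · refine ⟨b, a, ha, ?_⟩
      have hx0 : x ≠ 0 := by
        rintro rfl
        rw [mul_zero] at h
        exact pkgB_ι_ne_zero ha h.symm
      rw [← h, mul_assoc, mul_inv_cancel₀ hx0, mul_one]
  | mul x y _ _ ihx ihy =>
    obtain ⟨a, b, hb, h⟩ := ihx
    obtain ⟨a', b', hb', h'⟩ := ihy
    refine ⟨a * a', b * b', mul_ne_zero hb hb', ?_⟩
    rw [map_mul, map_mul, ← h, ← h']
    ring

variable (ℓ : ℕ) [Fact ℓ.Prime]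

/-- The valuation property of the Gauss valuation ring on fractions. -/
theorem pkgB_O_valuation {x : LaurentSeries ℚ}
    (hx : ∃ a b : LaurentSeries ℤ, b ≠ 0 ∧ pkgB_ι b * x = pkgB_ι a) :
    x ∈ pkgB_O ℓ ∨ x⁻¹ ∈ pkgB_O ℓ := by
  have hp : ℓ.Prime := Fact.out
  have hℓ : (ℓ : LaurentSeries ℚ) ≠ 0 := pkgB_natCast_ne_zero hp.ne_zero
  obtain ⟨a, b, hb, h⟩ := hx
  by_cases ha : a = 0
  · left
    subst ha
    rw [map_zero] at h
    have hx0 : x = 0 := (mul_eq_zero.mp h).resolve_left (pkgB_ι_ne_zero hb)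
    rw [hx0]
    exact zero_mem _
  obtain ⟨s, a', rfl, ha'⟩ := pkgB_content ℓ a ha
  obtain ⟨t, b', rfl, hb'⟩ := pkgB_content ℓ b hb
  have ha'0 : a' ≠ 0 := by rintro rfl; exact ha' (map_zero _)
  have hb'0 : b' ≠ 0 := by rintro rfl; exact hb' (map_zero _)
  rw [map_mul, map_mul, map_pow, map_pow, map_natCast] at h
  rcases le_total t s with hts | hst
  · left
    refine ⟨(ℓ : LaurentSeries ℤ) ^ (s - t) * a', b', hb', ?_⟩
    rw [map_mul, map_pow, map_natCast]
    apply mul_left_cancel₀ (pow_ne_zero t hℓ)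
    rw [← mul_assoc, h, ← mul_assoc, ← pow_add, Nat.add_sub_cancel' hts]
  · right
    refine ⟨(ℓ : LaurentSeries ℤ) ^ (t - s) * b', a', ha', ?_⟩
    rw [map_mul, map_pow, map_natCast]
    have hx0 : x ≠ 0 := by
      rintro rfl
      rw [mul_zero] at h
      exact mul_ne_zero (pow_ne_zero s hℓ) (pkgB_ι_ne_zero ha'0) h.symm
    have h2 : (ℓ : LaurentSeries ℚ) ^ (t - s) * pkgB_ι b' * x = pkgB_ι a' := by
      apply mul_left_cancel₀ (pow_ne_zero s hℓ)
      rw [← h, ← mul_assoc, ← mul_assoc, ← pow_add, Nat.add_sub_cancel' hst]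
    rw [← h2, mul_assoc, mul_assoc, mul_inv_cancel₀ hx0, mul_one]

/-- The coercion of a constant of `ℤ_(ℓ)` to `ℚ((q))`. -/
theorem pkgB_coe_algebraMap (r : ↥(GaloisRep.ratLocalizedAt ℓ)) :
    ((algebraMap ↥(GaloisRep.ratLocalizedAt ℓ) ↥(modularFunctionFieldFull N) r :
      ↥(modularFunctionFieldFull N)) : LaurentSeries ℚ) = HahnSeries.C (r : ℚ) := by
  have h1 : ((algebraMap ↥(GaloisRep.ratLocalizedAt ℓ) ↥(modularFunctionFieldFull N) r :
        ↥(modularFunctionFieldFull N)) : LaurentSeries ℚ)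
      = ((algebraMap ↥(modularFunctionFieldFull N) (LaurentSeries ℚ)).comp
          (algebraMap ℚ ↥(modularFunctionFieldFull N))) (r : ℚ) := rfl
  rw [h1, RingHom.ext_rat ((algebraMap ↥(modularFunctionFieldFull N) (LaurentSeries ℚ)).comp
          (algebraMap ℚ ↥(modularFunctionFieldFull N))) (HahnSeries.C : ℚ →+* LaurentSeries ℚ)]

/-- The Gauss valuation ring of the modular function field, as a `ℤ_(ℓ)`-subalgebra. -/
def pkgB_OF : Subalgebra ↥(GaloisRep.ratLocalizedAt ℓ) ↥(modularFunctionFieldFull N) where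
  toSubsemiring := ((pkgB_O ℓ).comap
    (algebraMap ↥(modularFunctionFieldFull N) (LaurentSeries ℚ))).toSubsemiring
  algebraMap_mem' r := by
    show ((algebraMap ↥(GaloisRep.ratLocalizedAt ℓ) ↥(modularFunctionFieldFull N) r :
      ↥(modularFunctionFieldFull N)) : LaurentSeries ℚ) ∈ pkgB_O ℓ
    rw [pkgB_coe_algebraMap]
    refine ⟨HahnSeries.C (r : ℚ).num, HahnSeries.C ((r : ℚ).den : ℤ), ?_, pkgB_C_rat _⟩
    rw [HahnSeries.C_apply, coeffMap_single]
    intro h
    have h2 := congrArg (fun x => x.coeff 0) h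
    simp only [HahnSeries.coeff_single_same, HahnSeries.coeff_zero] at h2
    have h3 : (((r : ℚ).den : ℕ) : ZMod ℓ) = 0 := by simpa using h2
    rw [ZMod.natCast_eq_zero_iff] at h3
    exact (pkgB_mem_Zl_iff ℓ).mp r.2 h3

theorem pkgB_mem_OF_iff {x : ↥(modularFunctionFieldFull N)} :
    x ∈ pkgB_OF N ℓ ↔ (x : LaurentSeries ℚ) ∈ pkgB_O ℓ := Iff.rfl

theorem pkgB_OF_valuation (x : ↥(modularFunctionFieldFull N)) :
    x ∈ pkgB_OF N ℓ ∨ x⁻¹ ∈ pkgB_OF N ℓ := by
  rw [pkgB_mem_OF_iff, pkgB_mem_OF_iff]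
  have := pkgB_O_valuation ℓ (pkgB_mem_E N x.2)
  simpa using this

/-- A chart algebra generated by elements of the Gauss valuation ring lies inside it. -/
theorem pkgB_chartAlg_le (S : Set ↥(modularFunctionFieldFull N))
    (hS : ∀ s ∈ S, (s : LaurentSeries ℚ) ∈ pkgB_O ℓ) : chartAlg N ℓ S ≤ pkgB_OF N ℓ := by
  intro x hx
  have hle : Algebra.adjoin ↥(GaloisRep.ratLocalizedAt ℓ) S ≤ pkgB_OF N ℓ :=
    Algebra.adjoin_le fun s hs => hS s hs
  have hx' : IsIntegral ↥(pkgB_OF N ℓ) x :=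
    ((mem_chartAlg_iff N ℓ).mp hx).map_of_comp_eq (Subalgebra.inclusion hle).toRingHom
      (RingHom.id _) (by ext; rfl)
  exact pkgB_mem_of_isIntegral_subalgebra _ (pkgB_OF_valuation N ℓ) hx'

end Fermat.Agent.S28
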