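import Mathlib
import Fermat.Prelude.Def_ModularCurve_IgusaScheme
import Fermat.Prelude.Def_ModularCurve_X0ModL
import Fermat.Agent.S28.PkgB.Generic
import Fermat.Agent.S28.PkgB.Zl
import Fermat.Agent.S28.PkgB.Gauss
import Fermat.Agent.S28.PkgB.Field

set_option autoImplicit false
set_option linter.unusedSectionVars false

open ModularCurve ModularCurve.IgusaScheme Polynomial

noncomputable section

namespace Fermat.Agent.S28

variable (N : ℕ) [NeZero N] (ℓ : ℕ) [Fact ℓ.Prime]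

/-- The coercion to `ℚ((q))` of a polynomial over `ℤ_(ℓ)` in `t`. -/
theorem pkgB_coe_aeval (t : ↥(modularFunctionFieldFull N))
    (p : Polynomial ↥(GaloisRep.ratLocalizedAt ℓ)) :
    ((aeval t p : ↥(modularFunctionFieldFull N)) : LaurentSeries ℚ)
      = ∑ i ∈ Finset.range (p.natDegree + 1),
          HahnSeries.C ((p.coeff i : ℚ)) * (t : LaurentSeries ℚ) ^ i := by
  rw [aeval_eq_sum_range]
  have h : ∀ s : Finset ℕ, ∀ f : ℕ → ↥(modularFunctionFieldFull N),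
      ((∑ i ∈ s, f i : ↥(modularFunctionFieldFull N)) : LaurentSeries ℚ)
        = ∑ i ∈ s, (f i : LaurentSeries ℚ) := fun s f =>
    map_sum (algebraMap ↥(modularFunctionFieldFull N) (LaurentSeries ℚ)) f s
  rw [h]
  refine Finset.sum_congr rfl fun i _ => ?_
  rw [Algebra.smul_def]
  show ((algebraMap ↥(GaloisRep.ratLocalizedAt ℓ) ↥(modularFunctionFieldFull N) (p.coeff i) :
      ↥(modularFunctionFieldFull N)) : LaurentSeries ℚ) * ((t ^ i : ↥(modularFunctionFieldFull N)) :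
      LaurentSeries ℚ) = _
  rw [pkgB_coe_algebraMap]
  rfl

theorem pkgB_coeff_C_mul (c : ℚ) (x : LaurentSeries ℚ) (k : ℤ) :
    (HahnSeries.C c * x).coeff k = c * x.coeff k := by
  rw [HahnSeries.C_mul_eq_smul, HahnSeries.coeff_smul, smul_eq_mul]

/-- `j` is transcendental over `ℤ_(ℓ)`. -/
theorem pkgB_transcendental_j : Transcendental ↥(GaloisRep.ratLocalizedAt ℓ) (jFull N) := by
  rw [transcendental_iff_injective, injective_iff_map_eq_zero]
  intro p hp
  by_contra hp0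
  have h1 := congrArg (fun x : ↥(modularFunctionFieldFull N) => (x : LaurentSeries ℚ)) hp
  simp only [pkgB_coe_aeval, coe_jFull] at h1
  have h2 := congrArg (fun x : LaurentSeries ℚ => x.coeff (-(p.natDegree : ℤ))) h1
  simp only [HahnSeries.coeff_sum, pkgB_coeff_C_mul] at h2
  rw [Finset.sum_range_succ, coeff_jq_pow_self, mul_one, Finset.sum_eq_zero, zero_add] at h2
  · have h3 : ((p.coeff p.natDegree : ↥(GaloisRep.ratLocalizedAt ℓ)) : ℚ) = 0 := h2
    have h4 : p.coeff p.natDegree = 0 := Subtype.ext h3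
    exact hp0 (leadingCoeff_eq_zero.mp h4)
  · intro i hi
    rw [coeff_jq_pow_of_lt (by simpa using Finset.mem_range.mp hi), mul_zero]

/-- `j⁻¹` is transcendental over `ℤ_(ℓ)`. -/
theorem pkgB_transcendental_jinv :
    Transcendental ↥(GaloisRep.ratLocalizedAt ℓ) (jFull N)⁻¹ := fun h =>
  pkgB_transcendental_j N ℓ (IsAlgebraic.inv_iff.mp h)

variable {N ℓ}

/-- The polynomial ring over `ℤ_(ℓ)` is isomorphic to `ℤ_(ℓ)[t]` for transcendental `t`. -/
def pkgB_adjoinEquiv {t : ↥(modularFunctionFieldFull N)}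
    (ht : Transcendental ↥(GaloisRep.ratLocalizedAt ℓ) t) :
    Polynomial ↥(GaloisRep.ratLocalizedAt ℓ) ≃ₐ[↥(GaloisRep.ratLocalizedAt ℓ)]
      ↥(Algebra.adjoin ↥(GaloisRep.ratLocalizedAt ℓ) {t}) :=
  (AlgEquiv.ofInjective (aeval t) (transcendental_iff_injective.mp ht)).trans
    (Subalgebra.equivOfEq _ _ (Algebra.adjoin_singleton_eq_range_aeval _ t).symm)

theorem pkgB_adjoinEquiv_coe {t : ↥(modularFunctionFieldFull N)}
    (ht : Transcendental ↥(GaloisRep.ratLocalizedAt ℓ) t)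
    (p : Polynomial ↥(GaloisRep.ratLocalizedAt ℓ)) :
    ((pkgB_adjoinEquiv ht p : ↥(Algebra.adjoin ↥(GaloisRep.ratLocalizedAt ℓ) {t})) :
      ↥(modularFunctionFieldFull N)) = aeval t p := rfl

theorem pkgB_adjoin_isIntegrallyClosed {t : ↥(modularFunctionFieldFull N)}
    (ht : Transcendental ↥(GaloisRep.ratLocalizedAt ℓ) t) :
    IsIntegrallyClosed ↥(Algebra.adjoin ↥(GaloisRep.ratLocalizedAt ℓ) {t}) :=
  IsIntegrallyClosed.of_equiv (pkgB_adjoinEquiv ht).toRingEquiv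

theorem pkgB_adjoinEquiv_C_natCast {t : ↥(modularFunctionFieldFull N)}
    (ht : Transcendental ↥(GaloisRep.ratLocalizedAt ℓ) t) (n : ℕ) :
    pkgB_adjoinEquiv ht (C (n : ↥(GaloisRep.ratLocalizedAt ℓ)))
      = (n : ↥(Algebra.adjoin ↥(GaloisRep.ratLocalizedAt ℓ) {t})) := by
  have h : C (n : ↥(GaloisRep.ratLocalizedAt ℓ)) = (n : Polynomial ↥(GaloisRep.ratLocalizedAt ℓ)) :=
    map_natCast (C : ↥(GaloisRep.ratLocalizedAt ℓ) →+* _) n
  rw [h, map_natCast]

theorem pkgB_adjoin_prime {t : ↥(modularFunctionFieldFull N)}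
    (ht : Transcendental ↥(GaloisRep.ratLocalizedAt ℓ) t) :
    Prime ((ℓ : ℕ) : ↥(Algebra.adjoin ↥(GaloisRep.ratLocalizedAt ℓ) {t})) := by
  rw [← pkgB_adjoinEquiv_C_natCast ht]
  exact (MulEquiv.prime_iff (pkgB_adjoinEquiv ht)).mpr (prime_C_iff.mpr (pkgB_Zl_prime ℓ))

theorem pkgB_not_dvd_map {c : Polynomial ℤ} (hc : ¬ C (ℓ : ℤ) ∣ c) :
    ¬ C ((ℓ : ℕ) : ↥(GaloisRep.ratLocalizedAt ℓ)) ∣
      c.map (algebraMap ℤ ↥(GaloisRep.ratLocalizedAt ℓ)) := by
  intro h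
  apply hc
  rw [C_dvd_iff_dvd_coeff] at h ⊢
  intro i
  have := h i
  rw [coeff_map, pkgB_Zl_natCast_dvd_iff] at this
  have h2 : ((algebraMap ℤ ↥(GaloisRep.ratLocalizedAt ℓ) (c.coeff i) :
      ↥(GaloisRep.ratLocalizedAt ℓ)) : ℚ) = ((c.coeff i : ℤ) : ℚ) := by
    simp
  rw [h2, Rat.num_intCast] at this
  exact this

/-- Step (I) for a chart algebra. -/
theorem pkgB_chart_div {t : ↥(modularFunctionFieldFull N)}
    (ht : Transcendental ↥(GaloisRep.ratLocalizedAt ℓ) t) {c : Polynomial ℤ}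
    (hc : ¬ C (ℓ : ℤ) ∣ c) {z : ↥(modularFunctionFieldFull N)}
    (h1 : (ℓ : ↥(modularFunctionFieldFull N)) * z ∈ chartAlg N ℓ {t})
    (h2 : aeval t c * z ∈ chartAlg N ℓ {t}) : z ∈ chartAlg N ℓ {t} := by
  have := pkgB_adjoin_isIntegrallyClosed ht
  rw [mem_chartAlg_iff] at h1 h2 ⊢
  set c' := c.map (algebraMap ℤ ↥(GaloisRep.ratLocalizedAt ℓ)) with hc'
  have hc'2 : ¬ ((ℓ : ℕ) : ↥(Algebra.adjoin ↥(GaloisRep.ratLocalizedAt ℓ) {t})) ∣
      pkgB_adjoinEquiv ht c' := by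
    rw [← pkgB_adjoinEquiv_C_natCast ht, map_dvd_iff]
    exact pkgB_not_dvd_map hc
  refine pkgB_isIntegral_of_smul (pkgB_adjoin_prime ht) hc'2 ?_ ?_
  · have : ((ℓ : ℕ) : ↥(Algebra.adjoin ↥(GaloisRep.ratLocalizedAt ℓ) {t})) • z
        = (ℓ : ↥(modularFunctionFieldFull N)) * z := by
      rw [Algebra.smul_def, map_natCast]
    rw [this]
    exact h1
  · have : pkgB_adjoinEquiv ht c' • z = aeval t c * z := by
      rw [Algebra.smul_def]
      congr 1
      show aeval t c' = aeval t c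
      rw [hc', aeval_map_algebraMap]
    rw [this]
    exact h2

end Fermat.Agent.S28
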