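import Mathlib
import Fermat.Prelude.Def_ModularCurve_IgusaScheme
import Fermat.Prelude.Def_ModularCurve_X0ModL
import Fermat.Agent.S28.PkgB.Generic
import Fermat.Agent.S28.PkgB.Zl
import Fermat.Agent.S28.PkgB.Gauss
import Fermat.Agent.S28.PkgB.Field
import Fermat.Agent.S28.PkgB.Charts

set_option autoImplicit false
set_option linter.unusedSectionVars false

open ModularCurve ModularCurve.IgusaScheme Polynomial

noncomputable section

namespace Fermat.Agent.S28

variable (N : ℕ) [NeZero N] (ℓ : ℕ) [Fact ℓ.Prime]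

theorem pkgB_jq_eq : jq = pkgB_ι (jqModC ℤ) := by
  rw [pkgB_ι, coeffMap_jqModC]
  rfl

theorem pkgB_jq_mem_O : jq ∈ pkgB_O ℓ := by
  rw [pkgB_jq_eq]
  exact pkgB_ι_mem_O ℓ _

theorem pkgB_red_jq : pkgB_red ℓ (jqModC ℤ) = jqModC (ZMod ℓ) := coeffMap_jqModC _

theorem pkgB_red_jq_ne_zero : pkgB_red ℓ (jqModC ℤ) ≠ 0 := by
  rw [pkgB_red_jq]
  exact jqModC_ne_zero_of_nontrivial _

theorem pkgB_jqinv_mem_O : jq⁻¹ ∈ pkgB_O ℓ := by
  refine ⟨1, jqModC ℤ, pkgB_red_jq_ne_zero ℓ, ?_⟩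
  rw [← pkgB_jq_eq, map_one, mul_inv_cancel₀ jq_ne_zero]

/-- The three chart algebras lie in the Gauss valuation ring. -/
theorem pkgB_chartAlgMid_le : chartAlgMid N ℓ ≤ pkgB_OF N ℓ := by
  refine pkgB_chartAlg_le N ℓ _ ?_
  rintro s (rfl | rfl)
  · exact pkgB_jq_mem_O ℓ
  · show ((jFull N)⁻¹ : ↥(modularFunctionFieldFull N)).1 ∈ pkgB_O ℓ
    exact pkgB_jqinv_mem_O ℓ

theorem pkgB_chartAlgFin_le : chartAlgFin N ℓ ≤ pkgB_OF N ℓ :=
  (chartAlg_mono N ℓ (sFin_subset N)).trans (pkgB_chartAlgMid_le N ℓ)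

theorem pkgB_chartAlgInf_le : chartAlgInf N ℓ ≤ pkgB_OF N ℓ :=
  (chartAlg_mono N ℓ (sInf_subset N)).trans (pkgB_chartAlgMid_le N ℓ)

/-- Evaluation of integer polynomials does not depend on the `ℤ`-algebra instance. -/
theorem pkgB_aeval_int {A : Type*} [CommRing A] [Algebra ℤ A] (x : A) (c : Polynomial ℤ) :
    aeval x c = eval₂ (Int.castRingHom A) x c := by
  rw [aeval_def]
  congr 1
  exact RingHom.ext_int _ _

theorem pkgB_map_eval₂_int {A B : Type*} [CommRing A] [CommRing B] (f : A →+* B) (x : A)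
    (c : Polynomial ℤ) :
    f (eval₂ (Int.castRingHom A) x c) = eval₂ (Int.castRingHom B) (f x) c := by
  rw [hom_eval₂]
  congr 1
  exact RingHom.ext_int _ _

/-- Coercion of an integer polynomial in `j`. -/
theorem pkgB_coe_aeval_int (t : ↥(modularFunctionFieldFull N)) (c : Polynomial ℤ) :
    ((aeval t c : ↥(modularFunctionFieldFull N)) : LaurentSeries ℚ)
      = aeval (t : LaurentSeries ℚ) c := by
  rw [pkgB_aeval_int, pkgB_aeval_int]
  exact pkgB_map_eval₂_int (algebraMap ↥(modularFunctionFieldFull N) (LaurentSeries ℚ)) t c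

theorem pkgB_aeval_int_mem (S : Set ↥(modularFunctionFieldFull N))
    {t : ↥(modularFunctionFieldFull N)} (ht : t ∈ chartAlg N ℓ S) (c : Polynomial ℤ) :
    aeval t c ∈ chartAlg N ℓ S := by
  rw [aeval_eq_sum_range]
  refine sum_mem fun i _ => ?_
  rw [zsmul_eq_mul]
  exact mul_mem (intCast_mem _ _) (pow_mem ht i)

/-- Conversion of the integrality hypothesis. -/
theorem pkgB_mem_chartAlgFin_of_isIntegral {y : ↥(modularFunctionFieldFull N)}
    (h : IsIntegral (Algebra.adjoin ℤ {jq}) (y : LaurentSeries ℚ)) : y ∈ chartAlgFin N ℓ := by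
  classical
  have hB : ∀ a ∈ Algebra.adjoin ℤ ({jq} : Set (LaurentSeries ℚ)),
      ∃ b : ↥(Algebra.adjoin ↥(GaloisRep.ratLocalizedAt ℓ)
        ({jFull N} : Set ↥(modularFunctionFieldFull N))),
        ((b : ↥(modularFunctionFieldFull N)) : LaurentSeries ℚ) = a := by
    intro a ha
    induction ha using Algebra.adjoin_induction with
    | mem a ha =>
      rw [Set.mem_singleton_iff] at ha
      subst ha
      exact ⟨⟨jFull N, Algebra.subset_adjoin rfl⟩, rfl⟩
    | algebraMap n =>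
      refine ⟨(n : ↥(Algebra.adjoin ↥(GaloisRep.ratLocalizedAt ℓ)
        ({jFull N} : Set ↥(modularFunctionFieldFull N)))), ?_⟩
      simp
    | add a b _ _ iha ihb =>
      obtain ⟨a', rfl⟩ := iha
      obtain ⟨b', rfl⟩ := ihb
      exact ⟨a' + b', rfl⟩
    | mul a b _ _ iha ihb =>
      obtain ⟨a', rfl⟩ := iha
      obtain ⟨b', rfl⟩ := ihb
      exact ⟨a' * b', rfl⟩
  obtain ⟨p, hmonic, hroot⟩ := h
  set P' := p.map (algebraMap (↥(Algebra.adjoin ℤ ({jq} : Set (LaurentSeries ℚ))))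
    (LaurentSeries ℚ)) with hP'
  have hP'monic : P'.Monic := hmonic.map _
  have hP'root : P'.eval (y : LaurentSeries ℚ) = 0 := by
    rw [hP', eval_map]
    exact hroot
  have hlifts : P' ∈ lifts (algebraMap (↥(Algebra.adjoin ↥(GaloisRep.ratLocalizedAt ℓ)
      ({jFull N} : Set ↥(modularFunctionFieldFull N)))) (LaurentSeries ℚ)) := by
    rw [lifts_iff_coeff_lifts]
    intro i
    obtain ⟨b, hb⟩ := hB (P'.coeff i) (by rw [hP', coeff_map]; exact (p.coeff i).2)
    exact ⟨b, hb⟩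
  obtain ⟨q, hq, -, hqmonic⟩ := lifts_and_natDegree_eq_and_monic hlifts hP'monic
  have hint : IsIntegral (↥(Algebra.adjoin ↥(GaloisRep.ratLocalizedAt ℓ)
      ({jFull N} : Set ↥(modularFunctionFieldFull N))))
      (algebraMap ↥(modularFunctionFieldFull N) (LaurentSeries ℚ) y) := by
    refine ⟨q, hqmonic, ?_⟩
    rw [← eval_map, hq]
    exact hP'root
  rw [mem_chartAlg_iff]
  exact (isIntegral_algebraMap_iff
    (algebraMap ↥(modularFunctionFieldFull N) (LaurentSeries ℚ)).injective).mp hint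

theorem pkgB_natCast_F_ne_zero {k : ℕ} (hk : k ≠ 0) : (k : ↥(modularFunctionFieldFull N)) ≠ 0 := by
  intro h
  have := congrArg (algebraMap ↥(modularFunctionFieldFull N) (LaurentSeries ℚ)) h
  rw [map_natCast, map_zero] at this
  exact pkgB_natCast_ne_zero hk this

/-- The kernel theorem for the finite chart: an element of `A_fin` whose reduction vanishes is
divisible by `ℓ` in `A_fin`. -/
theorem pkgB_ker_fin (n : ℕ) (x : Fin n → LaurentSeries ℤ)
    (hF : ∀ i, pkgB_ι (x i) ∈ modularFunctionFieldFull N)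
    (hInt : ∀ i, (⟨pkgB_ι (x i), hF i⟩ : ↥(modularFunctionFieldFull N)) ∈ chartAlgFin N ℓ)
    (hdep : ∀ m ∈ modularFunctionFieldFull N, ∃ (c₀ : Polynomial ℤ) (c : Fin n → Polynomial ℤ),
      (c₀ ≠ 0 ∨ ∃ i, c i ≠ 0) ∧
      eval₂ (Int.castRingHom (LaurentSeries ℚ)) jq c₀ * m
        + ∑ i, eval₂ (Int.castRingHom (LaurentSeries ℚ)) jq (c i) * pkgB_ι (x i) = 0)
    (hind : ∀ c : Fin n → Polynomial ℤ,
      ∑ i, eval₂ (Int.castRingHom (LaurentSeries (ZMod ℓ))) (jqModC (ZMod ℓ)) (c i)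
        * pkgB_red ℓ (x i) = 0 → ∀ i, C (ℓ : ℤ) ∣ c i)
    (m : ↥(modularFunctionFieldFull N)) (hm : m ∈ chartAlgFin N ℓ)
    (hred : pkgB_redFun ℓ (m : LaurentSeries ℚ) = 0) :
    ∃ m' ∈ chartAlgFin N ℓ, m = (ℓ : ↥(modularFunctionFieldFull N)) * m' := by
  classical
  have hp : ℓ.Prime := Fact.out
  have hπ : Prime (C (ℓ : ℤ) : Polynomial ℤ) := prime_C_iff.mpr (Nat.prime_iff_prime_int.mp hp)
  have hℓL : (ℓ : LaurentSeries ℚ) ≠ 0 := pkgB_natCast_ne_zero hp.ne_zero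
  have hmO : (m : LaurentSeries ℚ) ∈ pkgB_O ℓ := pkgB_chartAlgFin_le N ℓ hm
  obtain ⟨c₀, c, hne, hrel⟩ := hdep m m.2
  -- the family of coefficients, normalised
  let cc : Option (Fin n) → Polynomial ℤ := fun o => o.elim c₀ c
  have hcc : ∃ o, cc o ≠ 0 := by
    rcases hne with h | ⟨i, hi⟩
    · exact ⟨none, h⟩
    · exact ⟨some i, hi⟩
  obtain ⟨k, cc', hcc', o, ho⟩ := pkgB_exists_prim hπ cc hcc
  have e : ∀ o, eval₂ (Int.castRingHom (LaurentSeries ℚ)) jq (cc o)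
      = (ℓ : LaurentSeries ℚ) ^ k * eval₂ (Int.castRingHom (LaurentSeries ℚ)) jq (cc' o) := by
    intro o
    rw [hcc' o, eval₂_mul, eval₂_pow, eval₂_C]
    simp
  have hrel' : eval₂ (Int.castRingHom (LaurentSeries ℚ)) jq (cc' none) * m
      + ∑ i, eval₂ (Int.castRingHom (LaurentSeries ℚ)) jq (cc' (some i)) * pkgB_ι (x i) = 0 := by
    have e0 : eval₂ (Int.castRingHom (LaurentSeries ℚ)) jq c₀
        = (ℓ : LaurentSeries ℚ) ^ k * eval₂ (Int.castRingHom (LaurentSeries ℚ)) jq (cc' none) :=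
      e none
    have ei : ∀ i, eval₂ (Int.castRingHom (LaurentSeries ℚ)) jq (c i)
        = (ℓ : LaurentSeries ℚ) ^ k
          * eval₂ (Int.castRingHom (LaurentSeries ℚ)) jq (cc' (some i)) := fun i => e (some i)
    have h3 : (ℓ : LaurentSeries ℚ) ^ k *
        (eval₂ (Int.castRingHom (LaurentSeries ℚ)) jq (cc' none) * m
          + ∑ i, eval₂ (Int.castRingHom (LaurentSeries ℚ)) jq (cc' (some i)) * pkgB_ι (x i))
        = 0 := by
      rw [← hrel, e0, mul_add, Finset.mul_sum, mul_assoc]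
      congr 1
      refine Finset.sum_congr rfl fun i _ => ?_
      rw [ei i, mul_assoc]
    exact (mul_eq_zero.mp h3).resolve_left (pow_ne_zero k hℓL)
  -- reduce the relation
  let jO : ↥(pkgB_O ℓ) := ⟨jq, pkgB_jq_mem_O ℓ⟩
  let mO : ↥(pkgB_O ℓ) := ⟨m, hmO⟩
  let xO : Fin n → ↥(pkgB_O ℓ) := fun i => ⟨pkgB_ι (x i), pkgB_ι_mem_O ℓ _⟩
  have hco : ∀ c : Polynomial ℤ,
      (pkgB_O ℓ).subtype (eval₂ (Int.castRingHom ↥(pkgB_O ℓ)) jO c)
        = eval₂ (Int.castRingHom (LaurentSeries ℚ)) jq c :=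
    fun c => pkgB_map_eval₂_int (pkgB_O ℓ).subtype jO c
  have hrelO : eval₂ (Int.castRingHom ↥(pkgB_O ℓ)) jO (cc' none) * mO
      + ∑ i, eval₂ (Int.castRingHom ↥(pkgB_O ℓ)) jO (cc' (some i)) * xO i = 0 := by
    apply (pkgB_O ℓ).subtype_injective
    rw [map_add, map_mul, map_sum, map_zero, hco]
    simp only [map_mul, hco]
    exact hrel'
  have hredO := congrArg (pkgB_redO ℓ) hrelO
  rw [map_add, map_mul, map_sum, map_zero] at hredO
  have hmO0 : pkgB_redO ℓ mO = 0 := hred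
  rw [hmO0, mul_zero, zero_add] at hredO
  have hjO : pkgB_redO ℓ jO = jqModC (ZMod ℓ) := by
    have : jO = ⟨pkgB_ι (jqModC ℤ), pkgB_ι_mem_O ℓ _⟩ := Subtype.ext pkgB_jq_eq
    rw [this, pkgB_redO_ι, pkgB_red_jq]
  have hdiv : ∀ i, C (ℓ : ℤ) ∣ cc' (some i) := by
    apply hind (fun i => cc' (some i))
    rw [← hredO]
    refine Finset.sum_congr rfl fun i _ => ?_
    rw [map_mul, pkgB_map_eval₂_int, hjO]
    congr 1
    exact (pkgB_redO_ι ℓ (x i)).symm
  have hnone : ¬ C (ℓ : ℤ) ∣ cc' none := by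
    cases o with
    | none => exact ho
    | some i => exact absurd (hdiv i) ho
  choose d hd using hdiv
  -- the quotient
  have hℓF : (ℓ : ↥(modularFunctionFieldFull N)) ≠ 0 := pkgB_natCast_F_ne_zero N hp.ne_zero
  set z : ↥(modularFunctionFieldFull N) := (ℓ : ↥(modularFunctionFieldFull N))⁻¹ * m with hz
  have h1 : (ℓ : ↥(modularFunctionFieldFull N)) * z = m := by
    rw [hz, ← mul_assoc, mul_inv_cancel₀ hℓF, one_mul]
  have h2 : aeval (jFull N) (cc' none) * z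
      = - ∑ i, aeval (jFull N) (d i) * ⟨pkgB_ι (x i), hF i⟩ := by
    apply (algebraMap ↥(modularFunctionFieldFull N) (LaurentSeries ℚ)).injective
    have hA : ∀ c : Polynomial ℤ,
        algebraMap ↥(modularFunctionFieldFull N) (LaurentSeries ℚ) (aeval (jFull N) c)
          = eval₂ (Int.castRingHom (LaurentSeries ℚ)) jq c := by
      intro c
      rw [pkgB_aeval_int]
      exact pkgB_map_eval₂_int _ _ _
    rw [map_mul, map_neg, map_sum, hA, hz, map_mul, map_inv₀, map_natCast]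
    simp only [map_mul, hA]
    have hx : ∀ i, algebraMap ↥(modularFunctionFieldFull N) (LaurentSeries ℚ)
        ⟨pkgB_ι (x i), hF i⟩ = pkgB_ι (x i) := fun i => rfl
    simp only [hx]
    have hm' : algebraMap ↥(modularFunctionFieldFull N) (LaurentSeries ℚ) m
        = (m : LaurentSeries ℚ) := rfl
    rw [hm']
    have h4 : ∀ i, eval₂ (Int.castRingHom (LaurentSeries ℚ)) jq (cc' (some i))
        = (ℓ : LaurentSeries ℚ) * eval₂ (Int.castRingHom (LaurentSeries ℚ)) jq (d i) := by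
      intro i
      rw [hd i, eval₂_mul, eval₂_C]
      simp
    simp only [h4] at hrel'
    have h5 : eval₂ (Int.castRingHom (LaurentSeries ℚ)) jq (cc' none) * (m : LaurentSeries ℚ)
        = - ((ℓ : LaurentSeries ℚ)
          * ∑ i, eval₂ (Int.castRingHom (LaurentSeries ℚ)) jq (d i) * pkgB_ι (x i)) := by
      rw [eq_neg_iff_add_eq_zero, ← hrel', Finset.mul_sum]
      congr 1
      refine Finset.sum_congr rfl fun i _ => ?_
      rw [mul_assoc]
    rw [mul_comm ((ℓ : LaurentSeries ℚ)⁻¹), ← mul_assoc, h5, neg_mul, mul_comm (ℓ : LaurentSeries ℚ),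
      mul_assoc, mul_inv_cancel₀ hℓL, mul_one]
  refine ⟨z, pkgB_chart_div (pkgB_transcendental_j N ℓ) hnone (h1 ▸ hm) ?_, h1.symm⟩
  rw [h2]
  refine neg_mem (sum_mem fun i _ => mul_mem ?_ ?_)
  · exact pkgB_aeval_int_mem N ℓ {jFull N}
      (subset_chartAlg N ℓ {jFull N} (Set.mem_singleton _)) (d i)
  · exact hInt i

end Fermat.Agent.S28
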