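import Mathlib
import Fermat.Prelude.Def_ModularCurve_IgusaScheme
import Fermat.Prelude.Def_ModularCurve_X0ModL
import Fermat.Agent.S28.PkgB.Generic
import Fermat.Agent.S28.PkgB.Zl
import Fermat.Agent.S28.PkgB.Gauss
import Fermat.Agent.S28.PkgB.Field
import Fermat.Agent.S28.PkgB.Charts
import Fermat.Agent.S28.PkgB.Kernel

set_option autoImplicit false
set_option linter.unusedSectionVars false

open ModularCurve ModularCurve.IgusaScheme Polynomial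

noncomputable section

namespace Fermat.Agent.S28

variable (N : ℕ) [NeZero N] (ℓ : ℕ) [Fact ℓ.Prime]

theorem pkgB_redO_apply (x : ↥(pkgB_O ℓ)) :
    pkgB_redO ℓ x = pkgB_redFun ℓ (x : LaurentSeries ℚ) := rfl

theorem pkgB_redFun_mul {x y : LaurentSeries ℚ} (hx : x ∈ pkgB_O ℓ) (hy : y ∈ pkgB_O ℓ) :
    pkgB_redFun ℓ (x * y) = pkgB_redFun ℓ x * pkgB_redFun ℓ y := by
  have h := map_mul (pkgB_redO ℓ) ⟨x, hx⟩ ⟨y, hy⟩
  rw [pkgB_redO_apply, pkgB_redO_apply, pkgB_redO_apply] at h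
  exact h

theorem pkgB_not_dvd_X_pow (b : ℕ) : ¬ C (ℓ : ℤ) ∣ (X ^ b : Polynomial ℤ) := by
  have hp : ℓ.Prime := Fact.out
  intro h
  rw [C_dvd_iff_dvd_coeff] at h
  have h1 := h b
  rw [coeff_X_pow, if_pos rfl] at h1
  have := Int.natCast_dvd_natCast.mp (by simpa using h1 : ((ℓ : ℕ) : ℤ) ∣ ((1 : ℕ) : ℤ))
  exact hp.one_lt.ne' (Nat.dvd_one.mp this)

/-- The kernel theorem for the chart at infinity. -/
theorem pkgB_ker_inf (n : ℕ) (x : Fin n → LaurentSeries ℤ)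
    (hF : ∀ i, pkgB_ι (x i) ∈ modularFunctionFieldFull N)
    (hInt : ∀ i, (⟨pkgB_ι (x i), hF i⟩ : ↥(modularFunctionFieldFull N)) ∈ chartAlgFin N ℓ)
    (hdep : ∀ m ∈ modularFunctionFieldFull N, ∃ (c₀ : Polynomial ℤ) (c : Fin n → Polynomial ℤ),
      (c₀ ≠ 0 ∨ ∃ i, c i ≠ 0) ∧
      eval₂ (Int.castRingHom (LaurentSeries ℚ)) jq c₀ * m
        + ∑ i, eval₂ (Int.castRingHom (LaurentSeries ℚ)) jq (c i) * pkgB_ι (x i) = 0)
    (hind : ∀ c : Fin n → Polynomial ℤ,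
      ∑ i, eval₂ (Int.castRingHom (LaurentSeries (ZMod ℓ))) (jqModC (ZMod ℓ)) (c i)
        * pkgB_red ℓ (x i) = 0 → ∀ i, C (ℓ : ℤ) ∣ c i)
    (m : ↥(modularFunctionFieldFull N)) (hm : m ∈ chartAlgInf N ℓ)
    (hred : pkgB_redFun ℓ (m : LaurentSeries ℚ) = 0) :
    ∃ m' ∈ chartAlgInf N ℓ, m = (ℓ : ↥(modularFunctionFieldFull N)) * m' := by
  have hp : ℓ.Prime := Fact.out
  have hj0 := jFull_ne_zero N
  have hℓF : (ℓ : ↥(modularFunctionFieldFull N)) ≠ 0 := pkgB_natCast_F_ne_zero N hp.ne_zero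
  have hmid : m ∈ chartAlgMid N ℓ := chartAlg_mono N ℓ (sInf_subset N) hm
  have hmid' : m ∈ chartAlg N ℓ (insert (jFull N)⁻¹ {jFull N}) := by
    have : (insert (jFull N)⁻¹ {jFull N} : Set ↥(modularFunctionFieldFull N))
        = {jFull N, (jFull N)⁻¹} := Set.pair_comm _ _
    rw [this]
    exact hmid
  obtain ⟨a, ha⟩ := exists_pow_mul_mem_chartAlg (Set.mem_singleton _) hj0 hmid'
  have hjaF : jFull N ^ a ∈ chartAlgFin N ℓ :=
    pow_mem (subset_chartAlg N ℓ {jFull N} (Set.mem_singleton _)) a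
  have hjaO : ((jFull N ^ a : ↥(modularFunctionFieldFull N)) : LaurentSeries ℚ) ∈ pkgB_O ℓ :=
    (pkgB_mem_OF_iff N ℓ).mp (pkgB_chartAlgFin_le N ℓ hjaF)
  have hmO : (m : LaurentSeries ℚ) ∈ pkgB_O ℓ :=
    (pkgB_mem_OF_iff N ℓ).mp (pkgB_chartAlgInf_le N ℓ hm)
  have hred' : pkgB_redFun ℓ
      ((jFull N ^ a * m : ↥(modularFunctionFieldFull N)) : LaurentSeries ℚ) = 0 := by
    rw [IntermediateField.coe_mul, pkgB_redFun_mul ℓ hjaO hmO, hred, mul_zero]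
  obtain ⟨m₁, hm₁, hm₁e⟩ := pkgB_ker_fin N ℓ n x hF hInt hdep hind _ ha hred'
  have hm₁mid : m₁ ∈ chartAlg N ℓ (insert ((jFull N)⁻¹)⁻¹ {(jFull N)⁻¹}) := by
    rw [inv_inv]
    exact chartAlg_mono N ℓ (sFin_subset N) hm₁
  obtain ⟨b, hb⟩ := exists_pow_mul_mem_chartAlg (Set.mem_singleton _) (inv_ne_zero hj0) hm₁mid
  set z : ↥(modularFunctionFieldFull N) := (ℓ : ↥(modularFunctionFieldFull N))⁻¹ * m with hz
  have h1 : (ℓ : ↥(modularFunctionFieldFull N)) * z = m := by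
    rw [hz, ← mul_assoc, mul_inv_cancel₀ hℓF, one_mul]
  have h2 : aeval (jFull N)⁻¹ (X ^ b : Polynomial ℤ) * z
      = (jFull N)⁻¹ ^ a * ((jFull N)⁻¹ ^ b * m₁) := by
    have hm₁' : m₁ = (ℓ : ↥(modularFunctionFieldFull N))⁻¹ * (jFull N ^ a * m) := by
      rw [hm₁e, ← mul_assoc, inv_mul_cancel₀ hℓF, one_mul]
    rw [aeval_X_pow, hm₁', hz]
    have hja : (jFull N)⁻¹ ^ a * jFull N ^ a = 1 := by
      rw [← mul_pow, inv_mul_cancel₀ hj0, one_pow]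
    calc (jFull N)⁻¹ ^ b * ((ℓ : ↥(modularFunctionFieldFull N))⁻¹ * m)
        = ((jFull N)⁻¹ ^ a * jFull N ^ a)
          * ((jFull N)⁻¹ ^ b * ((ℓ : ↥(modularFunctionFieldFull N))⁻¹ * m)) := by
          rw [hja, one_mul]
      _ = (jFull N)⁻¹ ^ a * ((jFull N)⁻¹ ^ b
          * ((ℓ : ↥(modularFunctionFieldFull N))⁻¹ * (jFull N ^ a * m))) := by ring
  refine ⟨z, pkgB_chart_div (pkgB_transcendental_jinv N ℓ) (pkgB_not_dvd_X_pow ℓ b)
    (h1 ▸ hm) ?_, h1.symm⟩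
  rw [h2]
  exact mul_mem (pow_mem (subset_chartAlg N ℓ {(jFull N)⁻¹} (Set.mem_singleton _)) a) hb

end Fermat.Agent.S28
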